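/-
P-FF / FF-G2 (helper19): every place of the special fibre carries an unramified coordinate
(`Fermat.Agent.H72.FF.UnrCoordStatement`), from the unramified lifting statement FF-G2'.

Plan.
* the cusp `∞` is a place of `F_L` fixed by the whole Galois group;
* for an `I`-fixed base place `P₀` and `Q ≠ r P₀`: lift a function of `L_k(n r(P₀))` with a
  simple zero at `Q` and exact pole order `n` at `r P₀` to an `I`-fixed `u`; `u` has a unique
  zero `P` in the disc of `Q`; the inertia group preserves the discs (value lemma applied to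
  `I`-fixed separating functions), hence fixes `P`;
* for `Q = r(∞)` change the base place.
-/
import Fermat.Agent.H72.FF.GeoBlocks
import Fermat.Agent.H60.KLModelCusp
import Fermat.Agent.H4.Inertia
import Fermat.Agent.H23.PlaceBasic

set_option autoImplicit false
set_option synthInstance.maxHeartbeats 400000
set_option maxHeartbeats 1600000
set_option linter.style.haveILetI false
set_option linter.unusedSectionVars false

noncomputable section

open AlgebraicCurve ModularCurve Fermat.Agent.H18 Fermat.Agent.H27.ESD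

namespace Fermat.Agent.H19.FF

open Fermat.Agent.H10.FF Fermat.Agent.H72.FF

/-! ### The cusp -/

theorem ff_order_coeffMap {R S : Type*} [CommRing R] [CommRing S] (f : R →+* S)
    (hf : Function.Injective f) (x : LaurentSeries R) :
    (coeffMap f x).order = x.order := by
  have h0 : ∀ y : LaurentSeries R, coeffMap f y = 0 → y = 0 := by
    intro y h
    ext k
    apply hf
    have := congrArg (fun z => HahnSeries.coeff z k) h
    simpa using this
  rcases eq_or_ne x 0 with rfl | hx
  · rw [map_zero, HahnSeries.order_zero, HahnSeries.order_zero]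
  have hx' : coeffMap f x ≠ 0 := fun h => hx (h0 x h)
  apply le_antisymm
  · apply HahnSeries.order_le_of_coeff_ne_zero
    rw [coeffMap_coeff]
    intro h
    exact hx (HahnSeries.coeff_order_eq_zero.mp (hf (by rw [h, map_zero])))
  · apply HahnSeries.order_le_of_coeff_ne_zero
    intro h
    apply hx'
    apply HahnSeries.coeff_order_eq_zero.mp
    rw [coeffMap_coeff, h, map_zero]

/-- The Galois action preserves the `q`-order. -/
theorem ff_order_galF (N : ℕ) (σ : GQ) (f : FLb N) :
    ((galF N σ • f : FLb N) : LaurentSeries Qb).order = (f : LaurentSeries Qb).order := by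
  rw [coe_arithmeticGalois_smul]
  exact ff_order_coeffMap _ σ.injective _

/-- The cusp `∞`: a place of `F_L` fixed by the whole Galois group. -/
theorem exists_galois_fixed_place (N : ℕ) (hN : N ≠ 0) :
    ∃ P : Place Qb (FLb N), ∀ σ : GQ, galF N σ • P = P := by
  haveI : NeZero N := ⟨hN⟩
  obtain ⟨P, hP⟩ := Fermat.Agent.H60.modelCuspPlace N Qb
  have hmem : ∀ f : FLb N, f ∈ P.toValuationSubring ↔
      f = 0 ∨ 0 ≤ (f : LaurentSeries Qb).order := by
    intro f
    rw [Fermat.Agent.H23.mem_iff_ord]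
    constructor
    · rintro (h | h)
      · exact Or.inl h
      · by_cases hf : f = 0
        · exact Or.inl hf
        · right; rw [← hP f hf]; exact h
    · rintro (h | h)
      · exact Or.inl h
      · by_cases hf : f = 0
        · exact Or.inl hf
        · right; rw [hP f hf]; exact h
  refine ⟨P, fun σ => ?_⟩
  apply Place.ext
  ext f
  rw [SemilinearAut.smul_toValuationSubring,
    ValuationSubring.mem_pointwise_smul_iff_inv_smul_mem, hmem, hmem]
  have h1 : (galF N σ)⁻¹ = galF N σ⁻¹ :=
    (map_inv (arithmeticGalois (modularFunctionFieldFull N)) σ).symm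
  rw [h1, ff_order_galF]
  constructor
  · rintro (h | h)
    · left
      have := congrArg (fun y => galF N σ • y) h
      simpa using this
    · exact Or.inr h
  · rintro (h | h)
    · left; rw [h, smul_zero]
    · exact Or.inr h

/-! ### The Galois action on values -/

theorem ff_smul_algebraMap (N : ℕ) (σ : GQ) (c : Qb) :
    galF N σ • algebraMap Qb (FLb N) c = algebraMap Qb (FLb N) (σ c) :=
  SemilinearAut.smul_algebraMap _ c

theorem ff_ord_smul (N : ℕ) (σ : GQ) (P : Place Qb (FLb N)) (f : FLb N) :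
    (galF N σ • P).ord (galF N σ • f) = P.ord f :=
  SemilinearAut.ord_smul _ P f

/-- The inertia group acts trivially on residues. -/
theorem ff_residue_inertia {A : ValuationSubring Qb} {σ : GQ}
    (hσ : σ ∈ A.inertiaSubgroupIn ℚ) {c : Qb} (hc : c ∈ A) (hc' : σ c ∈ A) :
    IsLocalRing.residue A ⟨σ c, hc'⟩ = IsLocalRing.residue A ⟨c, hc⟩ := by
  have h := Fermat.Agent.H4.inertia_sub_mem_nonunits A hσ hc
  rw [← sub_eq_zero, ← map_sub, IsLocalRing.residue_eq_zero_iff,
    ← ValuationSubring.coe_mem_nonunits_iff]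
  exact h

section Sep

variable {N ℓ : ℕ} {A : ValuationSubring Qb}
  {r : Place Qb (FLb N) → Place (kRes A) (Fkb A N)} {g : ℕ}

/-- In `F_k`: if `y` vanishes at `Q` and `y - κ` vanishes at `Q` or is zero, then `κ = 0`. -/
theorem ff_const_eq_zero (Q : Place (kRes A) (Fkb A N)) (y : Fkb A N) (κ : kRes A)
    (h1 : 1 ≤ Q.ord y)
    (h2 : y = algebraMap (kRes A) (Fkb A N) κ ∨
      1 ≤ Q.ord (y - algebraMap (kRes A) (Fkb A N) κ)) : κ = 0 := by
  by_contra hκ
  have hκ' : algebraMap (kRes A) (Fkb A N) κ ≠ 0 := fun h => hκ ((map_eq_zero _).mp h)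
  have h0 : Q.ord (algebraMap (kRes A) (Fkb A N) κ) = 0 := Fermat.Agent.H23.ord_algebraMap Q κ
  rcases h2 with h2 | h2
  · rw [h2, h0] at h1
    omega
  · have h3 : (1 : ℤ) ≤ Q.ord (y + -(y - algebraMap (kRes A) (Fkb A N) κ)) := by
      refine Fermat.Agent.H23.ord_add_ge Q ?_ 1 (Or.inr h1) (Or.inr ?_)
      · rw [show y + -(y - algebraMap (kRes A) (Fkb A N) κ) =
          algebraMap (kRes A) (Fkb A N) κ by ring]
        exact hκ'
      · rw [Fermat.Agent.H23.ord_neg]; exact h2
    rw [show y + -(y - algebraMap (kRes A) (Fkb A N) κ) =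
      algebraMap (kRes A) (Fkb A N) κ by ring, h0] at h3
    omega

/-- **Separation.** An element of the inertia group cannot move a place `P` to a disc which is
separated from the disc of `P` by the reduction of an `I`-fixed function without poles on the
two discs. -/
theorem ff_sep_contra (hS : GeoSetup N ℓ A r g) {σ : GQ} (hσ : σ ∈ A.inertiaSubgroupIn ℚ)
    (P : Place Qb (FLb N)) (w : gaussRing A N) (hw : IsUnrFn A N (w : FLb N))
    (hw0 : gaussRed A N w ≠ 0)
    (hnp : ∀ P1, r P1 = r P → 0 ≤ P1.ord (w : FLb N))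
    (hnp' : ∀ P1, r P1 = r (galF N σ • P) → 0 ≤ P1.ord (w : FLb N))
    (h0 : (r P).ord (gaussRed A N w) = 0)
    (h1 : 1 ≤ (r (galF N σ • P)).ord (gaussRed A N w)) : False := by
  have H := hS.rv
  have hdeg := hS.pkgL.deg_one P
  have hwne : (w : FLb N) ≠ 0 := rv_coe_ne_zero_of_red_ne_zero hw0
  obtain ⟨c₀, hc₀⟩ := Fermat.Agent.H23.exists_const_ord_sub_pos P hdeg
    (f := (w : FLb N)) (Or.inr (hnp P rfl))
  rcases hc₀ with hconst | hpos
  · -- `w` is constant: its reduction has no zero
    have hD : ∀ P1 : Place Qb (FLb N), (0 : Divisor Qb (FLb N)) P1 = P1.ord (w : FLb N) := by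
      intro P1
      rw [hconst, Fermat.Agent.H23.ord_algebraMap]
      rfl
    have h2 := H.mapDomain_eq w hw0 0 hD (r (galF N σ • P))
    rw [Finsupp.mapDomain_zero] at h2
    have h3 : (0 : ℤ) = (r (galF N σ • P)).ord (gaussRed A N w) := h2
    omega
  · have hne : (w : FLb N) ≠ algebraMap Qb (FLb N) c₀ := by
      intro h
      rw [h, sub_self, Place.ord_zero] at hpos
      exact lt_irrefl _ hpos
    obtain ⟨hcA, hval⟩ := H.value_lemma w (r P) hnp P rfl c₀ hpos hne
    have hsm : galF N σ • ((w : FLb N) - algebraMap Qb (FLb N) c₀) =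
        (w : FLb N) - algebraMap Qb (FLb N) (σ c₀) := by
      rw [smul_sub, hw σ hσ, ff_smul_algebraMap]
    have hpos' : 1 ≤ (galF N σ • P).ord ((w : FLb N) - algebraMap Qb (FLb N) (σ c₀)) := by
      rw [← hsm, ff_ord_smul]
      exact hpos
    have hne' : (w : FLb N) ≠ algebraMap Qb (FLb N) (σ c₀) := by
      intro h
      rw [h, sub_self, Place.ord_zero] at hpos'
      omega
    obtain ⟨hcA', hval'⟩ := H.value_lemma w (r (galF N σ • P)) hnp' (galF N σ • P) rfl (σ c₀)
      hpos' hne'
    rw [ff_residue_inertia hσ hcA hcA'] at hval'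
    have hκ := ff_const_eq_zero (r (galF N σ • P)) (gaussRed A N w) _ h1 hval'
    rw [hκ, map_zero, sub_zero] at hval
    rcases hval with hval | hval
    · exact hw0 hval
    · have hv : 1 ≤ (r P).ord (gaussRed A N w) := hval
      omega

end Sep

/-! ### Riemann-Roch spaces: functions with prescribed behaviour -/

section RR

/-- A subspace is not covered by two subspaces not containing it. -/
theorem ff_exists_not_mem_two {K V : Type*} [Field K] [AddCommGroup V] [Module K V]
    (W W₁ W₂ : Submodule K V) (h₁ : ∃ a ∈ W, a ∉ W₁) (h₂ : ∃ b ∈ W, b ∉ W₂) :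
    ∃ v ∈ W, v ∉ W₁ ∧ v ∉ W₂ := by
  obtain ⟨a, haW, ha⟩ := h₁
  obtain ⟨b, hbW, hb⟩ := h₂
  by_cases ha2 : a ∈ W₂
  · by_cases hb1 : b ∈ W₁
    · refine ⟨a + b, W.add_mem haW hbW, fun h => ha ?_, fun h => hb ?_⟩
      · have := W₁.sub_mem h hb1
        simpa using this
      · have := W₂.sub_mem h ha2
        simpa using this
    · exact ⟨b, hbW, hb1, hb⟩
  · exact ⟨a, haW, ha, ha2⟩

variable {K F : Type*} [Field K] [Field F] [Algebra K F]

theorem ff_rr_mono {D E : Divisor K F} (h : ∀ v, D v ≤ E v) :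
    riemannRochSpace D ≤ riemannRochSpace E := by
  intro x hx
  rw [mem_riemannRochSpace_iff] at hx ⊢
  intro v
  rcases hx v with h0 | h0
  · exact Or.inl h0
  · right
    have := h v
    omega

/-- For `deg E` large, `L(E - Q)` is strictly smaller than `L(E)`. -/
theorem ff_exists_rr_diff {g : ℕ} (hk : RiemannPackage K F g) (ck : ℤ)
    (hck : ∀ D : Divisor K F, ck ≤ Divisor.degree D →
      (Module.finrank K (riemannRochSpace D) : ℤ) = Divisor.degree D + 1 - (g : ℤ))
    (E : Divisor K F) (Q : Place K F) (hE : ck + 1 ≤ Divisor.degree E) :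
    ∃ x ∈ riemannRochSpace E, x ∉ riemannRochSpace (E - Finsupp.single Q 1) := by
  classical
  have hdeg : Divisor.degree (E - Finsupp.single Q 1) = Divisor.degree E - 1 := by
    rw [map_sub, Divisor.degree_single, hk.deg_one]
    simp
  have e1 := hck E (by omega)
  have e2 := hck (E - Finsupp.single Q 1) (by rw [hdeg]; omega)
  rw [hdeg] at e2
  have hle : riemannRochSpace (E - Finsupp.single Q 1) ≤ riemannRochSpace E := by
    apply ff_rr_mono
    intro v
    rw [Finsupp.sub_apply, Finsupp.single_apply]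
    split_ifs <;> omega
  by_contra hcon
  push Not at hcon
  have heq : riemannRochSpace E = riemannRochSpace (E - Finsupp.single Q 1) :=
    le_antisymm hcon hle
  rw [heq] at e1
  omega

/-- An element of `L(E) \ L(E - Q)` is nonzero of order exactly `-E(Q)` at `Q`. -/
theorem ff_ord_of_rr_diff (E : Divisor K F) (Q : Place K F) (x : F)
    (hx : x ∈ riemannRochSpace E) (hx' : x ∉ riemannRochSpace (E - Finsupp.single Q 1)) :
    x ≠ 0 ∧ Q.ord x = -E Q := by
  classical
  have hx0 : x ≠ 0 := fun h0 => hx' (h0 ▸ Submodule.zero_mem _)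
  refine ⟨hx0, ?_⟩
  rw [mem_riemannRochSpace_iff] at hx
  have h1 : -E Q ≤ Q.ord x := (hx Q).resolve_left hx0
  by_contra hne
  apply hx'
  rw [mem_riemannRochSpace_iff]
  intro v
  right
  have h2 : -E v ≤ v.ord x := (hx v).resolve_left hx0
  rw [Finsupp.sub_apply, Finsupp.single_apply]
  split_ifs with hv
  · subst hv
    omega
  · omega

end RR

/-! ### The inertia group preserves the discs, and the main construction -/

section Main

variable {N ℓ : ℕ} {A : ValuationSubring Qb}
  {r : Place Qb (FLb N) → Place (kRes A) (Fkb A N)} {g : ℕ}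

/-- An element of `L_L(n P₀)` has no pole outside `P₀`. -/
theorem ff_ord_nonneg_of_mem_rr (P₀ P1 : Place Qb (FLb N)) (n : ℕ) (u : FLb N)
    (hu : u ∈ riemannRochSpace (Finsupp.single P₀ (n : ℤ))) (hne : P1 ≠ P₀) :
    0 ≤ P1.ord u := by
  classical
  rw [mem_riemannRochSpace_iff] at hu
  rcases hu P1 with h | h
  · rw [h, Place.ord_zero]
  · rw [Finsupp.single_apply, if_neg (Ne.symm hne)] at h
    omega

/-- An element of `L_L(n P₀)` has a pole of order at most `n` at `P₀`. -/
theorem ff_ord_ge_of_mem_rr (P₀ : Place Qb (FLb N)) (n : ℕ) (u : FLb N)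
    (hu : u ∈ riemannRochSpace (Finsupp.single P₀ (n : ℤ))) :
    -(n : ℤ) ≤ P₀.ord u := by
  classical
  rw [mem_riemannRochSpace_iff] at hu
  rcases hu P₀ with h | h
  · rw [h, Place.ord_zero]
    omega
  · rw [Finsupp.single_apply, if_pos rfl] at h
    exact h

/-- **The inertia group preserves the discs** (away from the disc of the base place). -/
theorem ff_disc_fixed (h : UnrLiftingStatement) (hS : GeoSetup N ℓ A r g)
    (P₀ : Place Qb (FLb N)) (hP₀ : IsUnrPlace A N P₀) {σ : GQ}
    (hσ : σ ∈ A.inertiaSubgroupIn ℚ) (P : Place Qb (FLb N)) (h1 : r P ≠ r P₀)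
    (h2 : r (galF N σ • P) ≠ r P₀) : r (galF N σ • P) = r P := by
  classical
  by_contra hne
  obtain ⟨n₀, hn₀⟩ := h N ℓ A r g hS P₀ hP₀
  obtain ⟨ck, hck⟩ := hS.pkgk.eq_of_large
  obtain ⟨n, hn1, hn2⟩ : ∃ n : ℕ, n₀ ≤ n ∧ ck + 2 ≤ (n : ℤ) := by
    refine ⟨n₀ + (ck + 2).toNat, Nat.le_add_right _ _, ?_⟩
    have := Int.self_le_toNat (ck + 2)
    push_cast
    omega
  have hdegE : Divisor.degree (Finsupp.single (r P₀) (n : ℤ) -
      Finsupp.single (r (galF N σ • P)) 1 : Divisor (kRes A) (Fkb A N)) = n - 1 := by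
    rw [map_sub, Divisor.degree_single, Divisor.degree_single, hS.pkgk.deg_one,
      hS.pkgk.deg_one]
    simp
  obtain ⟨x, hxE, hxE'⟩ := ff_exists_rr_diff hS.pkgk ck hck
    (Finsupp.single (r P₀) (n : ℤ) - Finsupp.single (r (galF N σ • P)) 1) (r P)
    (by rw [hdegE]; omega)
  obtain ⟨hx0, hxQ⟩ := ff_ord_of_rr_diff _ (r P) x hxE hxE'
  have hEQ : (Finsupp.single (r P₀) (n : ℤ) -
      Finsupp.single (r (galF N σ • P)) 1 : Divisor (kRes A) (Fkb A N)) (r P) = 0 := by
    rw [Finsupp.sub_apply, Finsupp.single_apply, Finsupp.single_apply, if_neg (Ne.symm h1),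
      if_neg hne]
    simp
  have hEQ' : (Finsupp.single (r P₀) (n : ℤ) -
      Finsupp.single (r (galF N σ • P)) 1 : Divisor (kRes A) (Fkb A N))
        (r (galF N σ • P)) = -1 := by
    rw [Finsupp.sub_apply, Finsupp.single_apply, Finsupp.single_apply, if_neg (Ne.symm h2),
      if_pos rfl]
    simp
  have hxQ' : 1 ≤ (r (galF N σ • P)).ord x := by
    have := ((mem_riemannRochSpace_iff.mp hxE) (r (galF N σ • P))).resolve_left hx0
    rw [hEQ'] at this
    omega
  have hxL : x ∈ riemannRochSpace (Finsupp.single (r P₀) (n : ℤ)) := by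
    refine ff_rr_mono ?_ hxE
    intro v
    rw [Finsupp.sub_apply]
    have : 0 ≤ (Finsupp.single (r (galF N σ • P)) (1 : ℤ)) v := by
      rw [Finsupp.single_apply]
      split_ifs <;> omega
    omega
  obtain ⟨u, huI, huL, hured⟩ := hn₀ n hn1 x hxL
  have hu0 : gaussRed A N u ≠ 0 := by rw [hured]; exact hx0
  refine ff_sep_contra hS hσ P u huI hu0 ?_ ?_ ?_ ?_
  · intro P1 hP1
    refine ff_ord_nonneg_of_mem_rr P₀ P1 n _ huL ?_
    rintro rfl
    exact h1 hP1.symm
  · intro P1 hP1
    refine ff_ord_nonneg_of_mem_rr P₀ P1 n _ huL ?_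
    rintro rfl
    exact h2 hP1.symm
  · rw [hured, hxQ, hEQ]
    simp
  · rw [hured]
    exact hxQ'

/-- **Main construction**: an unramified coordinate at every place of the special fibre outside
the disc of an `I`-fixed base place. -/
theorem ff_unrCoord_of_base (h : UnrLiftingStatement) (hS : GeoSetup N ℓ A r g)
    (P₀ : Place Qb (FLb N)) (hP₀ : IsUnrPlace A N P₀) (Q : Place (kRes A) (Fkb A N))
    (hQ : Q ≠ r P₀) :
    ∃ (P : Place Qb (FLb N)) (t : gaussRing A N), IsUnrCoord A N r Q P t := by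
  classical
  have H := hS.rv
  obtain ⟨n₀, hn₀⟩ := h N ℓ A r g hS P₀ hP₀
  obtain ⟨ck, hck⟩ := hS.pkgk.eq_of_large
  obtain ⟨n, hn1, hn2⟩ : ∃ n : ℕ, n₀ ≤ n ∧ ck + 2 ≤ (n : ℤ) := by
    refine ⟨n₀ + (ck + 2).toNat, Nat.le_add_right _ _, ?_⟩
    have := Int.self_le_toNat (ck + 2)
    push_cast
    omega
  have hdegE : Divisor.degree (Finsupp.single (r P₀) (n : ℤ) -
      Finsupp.single Q 1 : Divisor (kRes A) (Fkb A N)) = n - 1 := by
    rw [map_sub, Divisor.degree_single, Divisor.degree_single, hS.pkgk.deg_one,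
      hS.pkgk.deg_one]
    simp
  -- a function with a simple zero at `Q` and exact pole order `n` at `r P₀`
  obtain ⟨x, hxE, hx1, hx2⟩ := ff_exists_not_mem_two
    (riemannRochSpace (Finsupp.single (r P₀) (n : ℤ) - Finsupp.single Q 1 :
      Divisor (kRes A) (Fkb A N)))
    (riemannRochSpace ((Finsupp.single (r P₀) (n : ℤ) - Finsupp.single Q 1 :
      Divisor (kRes A) (Fkb A N)) - Finsupp.single Q 1))
    (riemannRochSpace ((Finsupp.single (r P₀) (n : ℤ) - Finsupp.single Q 1 :
      Divisor (kRes A) (Fkb A N)) - Finsupp.single (r P₀) 1))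
    (ff_exists_rr_diff hS.pkgk ck hck _ Q (by rw [hdegE]; omega))
    (ff_exists_rr_diff hS.pkgk ck hck _ (r P₀) (by rw [hdegE]; omega))
  obtain ⟨hx0, hxQ⟩ := ff_ord_of_rr_diff _ Q x hxE hx1
  obtain ⟨-, hxQ₀⟩ := ff_ord_of_rr_diff _ (r P₀) x hxE hx2
  have hEQ : (Finsupp.single (r P₀) (n : ℤ) - Finsupp.single Q 1 :
      Divisor (kRes A) (Fkb A N)) Q = -1 := by
    rw [Finsupp.sub_apply, Finsupp.single_apply, Finsupp.single_apply, if_neg (Ne.symm hQ),
      if_pos rfl]
    simp
  have hEQ₀ : (Finsupp.single (r P₀) (n : ℤ) - Finsupp.single Q 1 :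
      Divisor (kRes A) (Fkb A N)) (r P₀) = n := by
    rw [Finsupp.sub_apply, Finsupp.single_apply, Finsupp.single_apply, if_pos rfl,
      if_neg hQ]
    simp
  rw [hEQ] at hxQ
  rw [hEQ₀] at hxQ₀
  have hxL : x ∈ riemannRochSpace (Finsupp.single (r P₀) (n : ℤ)) := by
    refine ff_rr_mono ?_ hxE
    intro v
    rw [Finsupp.sub_apply]
    have : 0 ≤ (Finsupp.single Q (1 : ℤ)) v := by
      rw [Finsupp.single_apply]
      split_ifs <;> omega
    omega
  obtain ⟨u, huI, huL, hured⟩ := hn₀ n hn1 x hxL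
  have hu0 : gaussRed A N u ≠ 0 := by rw [hured]; exact hx0
  have hune : (u : FLb N) ≠ 0 := rv_coe_ne_zero_of_red_ne_zero hu0
  have hsimple : Q.ord (gaussRed A N u) = 1 := by
    rw [hured, hxQ]
    simp
  -- no pole on the disc of `Q`
  have hnp : ∀ P1, r P1 = Q → 0 ≤ P1.ord (u : FLb N) := by
    intro P1 hP1
    refine ff_ord_nonneg_of_mem_rr P₀ P1 n _ huL ?_
    rintro rfl
    exact hQ hP1.symm
  -- the zero in the disc of `Q`
  obtain ⟨D, hD⟩ := H.hdiv _ hune
  have hmap := H.mapDomain_eq u hu0 D hD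
  have hmapQ : Finsupp.mapDomain r D Q = 1 := by
    rw [hmap Q]
    exact hsimple
  obtain ⟨P, hPQ, hP1⟩ : ∃ P, r P = Q ∧ 1 ≤ P.ord (u : FLb N) := by
    have hmem : Q ∈ (Finsupp.mapDomain r D).support := by
      rw [Finsupp.mem_support_iff, hmapQ]
      exact one_ne_zero
    have := Finsupp.mapDomain_support hmem
    rw [Finset.mem_image] at this
    obtain ⟨P, hPs, hPQ⟩ := this
    refine ⟨P, hPQ, ?_⟩
    have h3 : D P ≠ 0 := Finsupp.mem_support_iff.mp hPs
    have h4 := hnp P hPQ
    rw [hD] at h3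
    omega
  obtain ⟨hPord, hPuniq⟩ := H.ord_eq_of_coord Q P hPQ u hP1 hsimple hnp
  -- `P` is fixed by the inertia group
  have hPI : IsUnrPlace A N P := by
    intro σ hσ
    have hord' : (galF N σ • P).ord (u : FLb N) = 1 := by
      have := ff_ord_smul N σ P (u : FLb N)
      rw [huI σ hσ] at this
      rw [this]
      exact hPord
    -- the conjugate does not lie in the disc of the base place
    have hne₀ : r (galF N σ • P) ≠ r P₀ := by
      intro heq
      have hD'nn : ∀ P1, r P1 = r P₀ →
          0 ≤ (D + Finsupp.single P₀ (n : ℤ)) P1 := by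
        intro P1 _
        rw [Finsupp.add_apply, hD, Finsupp.single_apply]
        split_ifs with hP
        · subst hP
          have := ff_ord_ge_of_mem_rr P₀ n _ huL
          omega
        · have := ff_ord_nonneg_of_mem_rr P₀ P1 n _ huL (Ne.symm hP)
          omega
      have hle := rv_le_mapDomain r (D + Finsupp.single P₀ (n : ℤ)) (r P₀) (galF N σ • P) heq
        hD'nn
      have hL : (D + Finsupp.single P₀ (n : ℤ)) (galF N σ • P) =
          1 + (Finsupp.single P₀ (n : ℤ)) (galF N σ • P) := by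
        rw [Finsupp.add_apply, hD, hord']
      have hR : Finsupp.mapDomain r (D + Finsupp.single P₀ (n : ℤ)) (r P₀) = 0 := by
        rw [Finsupp.mapDomain_add, Finsupp.add_apply, Finsupp.mapDomain_single,
          Finsupp.single_apply, if_pos rfl, hmap (r P₀), hured, hxQ₀]
        ring
      rw [hL, hR] at hle
      have : 0 ≤ (Finsupp.single P₀ (n : ℤ)) (galF N σ • P) := by
        rw [Finsupp.single_apply]
        split_ifs <;> omega
      omega
    have hdisc : r (galF N σ • P) = r P :=
      ff_disc_fixed h hS P₀ hP₀ hσ P (by rw [hPQ]; exact hQ) hne₀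
    by_contra hcon
    have := hPuniq (galF N σ • P) (hdisc.trans hPQ) hcon
    omega
  exact ⟨P, u,
    { red := hPQ
      unrP := hPI
      unrT := huI
      zero := hP1
      simple := hsimple
      nopole := hnp }⟩

end Main

/-- **FF-G2.** Every place of the special fibre carries an unramified coordinate. -/
theorem unrCoord (h : UnrLiftingStatement) : UnrCoordStatement := by
  intro N ℓ A r g hS Q
  obtain ⟨Pinf, hPinf⟩ := exists_galois_fixed_place N hS.pos
  have hPinfI : IsUnrPlace A N Pinf := fun σ _ => hPinf σ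
  by_cases hQ : Q = r Pinf
  · haveI := hS.pkgk.infinite_places
    obtain ⟨Q₁, hQ₁⟩ := exists_ne (r Pinf)
    obtain ⟨P₁, t₁, h₁⟩ := ff_unrCoord_of_base h hS Pinf hPinfI Q₁ hQ₁
    have hne : Q ≠ r P₁ := by
      rw [h₁.red, hQ]
      exact hQ₁.symm
    exact ff_unrCoord_of_base h hS P₁ h₁.unrP Q hne
  · exact ff_unrCoord_of_base h hS Pinf hPinfI Q hQ

end Fermat.Agent.H19.FF

end
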