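/-
P-FF / FF-G2'-S (row 766, helper19): the unramified integers `R = A ∩ ℚ̄^I` surject onto the
residue field of `A` (`Fermat.Agent.H37.FF.UnrResidueSurjStatement`).

A nonzero element `x` of the residue field satisfies `x ^ m = 1` with `m = ℓ ^ s - 1`
(helper55's `residueField_frob_orbit`); a primitive `m`-th root of unity `ζ₀` of `ℚ̄` reduces to
a primitive `m`-th root of unity, so `x` is the residue of a power of `ζ₀`; roots of unity of
order prime to `ℓ` are fixed by inertia (helper53's `apply_rootOfUnity_of_mem_inertiaSubgroupIn`).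
-/
import Fermat.Agent.H37.FF.UnrLiftDefs
import Fermat.Agent.H55.Zeta.TMBModular
import Fermat.Agent.H53.ES.CycloFrob

set_option autoImplicit false
set_option linter.style.haveILetI false

noncomputable section

namespace Fermat.Agent.H19.FF

open Fermat.Agent.H72.FF

/-- **620-S.** `R = A ∩ ℚ̄^I` surjects onto the residue field of `A`. -/
theorem unrResidueSurj : Fermat.Agent.H37.FF.UnrResidueSurjStatement := by
  intro ℓ A hℓ hA x
  haveI : Fact ℓ.Prime := ⟨hℓ⟩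
  by_cases hx : x = 0
  · exact ⟨0, (unrInt A).zero_mem, by rw [hx, map_zero]⟩
  haveI hchar : CharP (IsLocalRing.ResidueField A) ℓ :=
    Fermat.Agent.H89.charP_residueField_of_liesOverPrime A ℓ hA
  obtain ⟨s, hs, hxs⟩ := Fermat.Agent.H55.Zeta.residueField_frob_orbit A ℓ hA x
  have hpos : 0 < ℓ ^ s := pow_pos hℓ.pos s
  obtain ⟨m, hm1⟩ : ∃ m : ℕ, m + 1 = ℓ ^ s := ⟨ℓ ^ s - 1, Nat.sub_add_cancel hpos⟩
  have hxm : x ^ m = 1 := by
    have h1 : x ^ m * x = 1 * x := by rw [← pow_succ, hm1, hxs, one_mul]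
    exact mul_right_cancel₀ hx h1
  have hm0 : m ≠ 0 := by
    rintro rfl
    have h2 : 1 < ℓ ^ s := Nat.one_lt_pow hs.ne' hℓ.one_lt
    omega
  -- `m` is nonzero in the residue field
  have hmk : ((m : ℕ) : IsLocalRing.ResidueField A) ≠ 0 := by
    intro h0
    have h1 : (((m + 1 : ℕ)) : IsLocalRing.ResidueField A) = 0 := by
      rw [hm1, Nat.cast_pow, CharP.cast_eq_zero (IsLocalRing.ResidueField A) ℓ,
        zero_pow hs.ne']
    rw [Nat.cast_add, h0, zero_add, Nat.cast_one] at h1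
    exact one_ne_zero h1
  have hmA : ((m : ℕ) : Qb) ∉ A.nonunits := by
    intro h
    rw [ValuationSubring.mem_nonunits_iff_exists_mem_maximalIdeal] at h
    obtain ⟨h1, h2⟩ := h
    have he : (⟨((m : ℕ) : Qb), h1⟩ : A) = ((m : ℕ) : A) := Subtype.ext (by simp)
    rw [he, ← IsLocalRing.residue_eq_zero_iff, map_natCast] at h2
    exact hmk h2
  -- a primitive root of unity
  haveI : NeZero m := ⟨hm0⟩
  haveI : NeZero ((m : ℕ) : Qb) := ⟨Nat.cast_ne_zero.mpr hm0⟩
  obtain ⟨ζ₀, hζ₀⟩ := HasEnoughRootsOfUnity.exists_primitiveRoot Qb m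
  have hmem : ∀ i : ℕ, ζ₀ ^ i ∈ A := fun i =>
    Fermat.Agent.H53.mem_of_pow_eq_one A hm0
      (by rw [← pow_mul, mul_comm, pow_mul, hζ₀.pow_eq_one, one_pow])
  have hζ₀A : ζ₀ ∈ A := by simpa using hmem 1
  set z : IsLocalRing.ResidueField A := IsLocalRing.residue A ⟨ζ₀, hζ₀A⟩ with hz
  have hzpow : ∀ i : ℕ, z ^ i = IsLocalRing.residue A ⟨ζ₀ ^ i, hmem i⟩ := by
    intro i
    rw [hz, ← map_pow]
    rfl
  have hprim : IsPrimitiveRoot z m := by
    refine IsPrimitiveRoot.mk_of_lt z (Nat.pos_of_ne_zero hm0) ?_ ?_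
    · rw [hzpow]
      have : (⟨ζ₀ ^ m, hmem m⟩ : A) = 1 := Subtype.ext hζ₀.pow_eq_one
      rw [this, map_one]
    · intro j hj hjm hj1
      rw [hzpow] at hj1
      have h1 : IsLocalRing.residue A (⟨ζ₀ ^ j, hmem j⟩ - 1) = 0 := by
        rw [map_sub, hj1, map_one, sub_self]
      rw [IsLocalRing.residue_eq_zero_iff, ← ValuationSubring.coe_mem_nonunits_iff] at h1
      have h2 : ζ₀ ^ j = 1 :=
        Fermat.Agent.H53.eq_of_pow_eq_one_of_sub_mem_nonunits A hmA (one_pow m)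
          (by rw [← pow_mul, mul_comm, pow_mul, hζ₀.pow_eq_one, one_pow]) h1
      have h3 := (hζ₀.pow_eq_one_iff_dvd j).mp h2
      exact absurd (Nat.le_of_dvd hj h3) (not_le.mpr hjm)
  obtain ⟨i, -, hi⟩ := hprim.eq_pow_of_pow_eq_one hxm
  refine ⟨⟨ζ₀ ^ i, hmem i⟩, ⟨hmem i, fun σ hσ => ?_⟩, ?_⟩
  · exact Fermat.Agent.H53.apply_rootOfUnity_of_mem_inertiaSubgroupIn hσ hmA
      (by rw [← pow_mul, mul_comm, pow_mul, hζ₀.pow_eq_one, one_pow])
  · rw [← hzpow, hi]

end Fermat.Agent.H19.FF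

end
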