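/-
P-FF / FF-G2'-P (row 768, helper19): helper18's pivot lemma with constants in a subfield
(`Fermat.Agent.H37.FF.RatPivotStatement`).

`rv_pivot_mem` is helper18's `Fermat.Agent.H18.rv_pivot` (same proof, induction on `j`) with
membership tracking: if the `U i` and `G` have their coefficients in a subfield `K` of `L`, the
correction constants lie in `K`.  The conclusion is the FULL `RvPivoted` property.
-/
import Fermat.Agent.H37.FF.UnrLiftDefs

set_option autoImplicit false
set_option linter.unusedSectionVars false
set_option linter.style.haveILetI false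

noncomputable section

open ModularCurve

namespace Fermat.Agent.H19.FF

open Fermat.Agent.H18

section RatPivot

variable {L : Type*} [Field L] {A : ValuationSubring L}
variable {k : Type*} [Field k] {π : A →+* k}

/-- **Pivot lemma with constants in a subfield.** -/
theorem rv_pivot_mem (K : Subfield L) (hker : ∀ a : A, π a = 0 ↔ ¬ IsUnit a) :
    ∀ (j : ℕ) (U : Fin j → LaurentSeries A), (∀ i n, (((U i).coeff n : A) : L) ∈ K) →
      RvIndep (fun i => coeffMap π (U i)) →
      ∀ G : LaurentSeries L, (∀ n, G.coeff n ∈ K) → ∃ c : Fin j → L, (∀ i, c i ∈ K) ∧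
        RvPivoted π U (G - ∑ i, HahnSeries.C (c i) * rvIota A (U i)) := by
  intro j
  induction j with
  | zero =>
    intro U _ _ G _
    refine ⟨fun _ => 0, fun i => K.zero_mem, fun γ W _ _ g hg => ?_⟩
    rw [hg]
    simp
  | succ j ih =>
    intro U hUK hU G hGK
    -- a pivot index for `U 0`
    have hU0 : coeffMap π (U 0) ≠ 0 := by
      intro h0
      have := hU (Pi.single 0 1) (by
        beta_reduce
        rw [Finset.sum_eq_single 0]
        · rw [h0, mul_zero]
        · intro i _ hi
          rw [Pi.single_eq_of_ne hi, map_zero, zero_mul]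
        · intro h; exact absurd (Finset.mem_univ _) h) 0
      rw [Pi.single_eq_same] at this
      exact one_ne_zero this
    obtain ⟨n₀, hn₀⟩ : ∃ n₀, π ((U 0).coeff n₀) ≠ 0 := by
      by_contra hcon
      push Not at hcon
      apply hU0
      ext n
      rw [coeffMap_coeff, HahnSeries.coeff_zero]
      exact hcon n
    have hu : IsUnit ((U 0).coeff n₀) := by
      by_contra hnu
      exact hn₀ ((hker _).mpr hnu)
    obtain ⟨u, hu⟩ := hu
    set v₀ : A := ↑u⁻¹ with hv₀
    have hvu : v₀ * (U 0).coeff n₀ = 1 := by
      rw [← hu]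
      exact Units.inv_mul u
    have hvuL : (v₀ : L) * ((U 0).coeff n₀ : L) = 1 := by
      have := congrArg Subtype.val hvu
      simpa using this
    have hvuk : π v₀ * π ((U 0).coeff n₀) = 1 := by
      rw [← map_mul, hvu, map_one]
    -- membership of the inverse of the pivot
    have hv₀K : (v₀ : L) ∈ K := by
      have h1 : (v₀ : L) = (((U 0).coeff n₀ : A) : L)⁻¹ := eq_inv_of_mul_eq_one_left hvuL
      rw [h1]
      exact K.inv_mem (hUK 0 n₀)
    -- the modified family
    let a : Fin j → A := fun i => (U i.succ).coeff n₀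
    have haK : ∀ i, (a i : L) ∈ K := fun i => hUK i.succ n₀
    let U' : Fin j → LaurentSeries A := fun i => U i.succ - HahnSeries.C (a i * v₀) * U 0
    have hU'n : ∀ i, (U' i).coeff n₀ = 0 := by
      intro i
      show (U i.succ - HahnSeries.C (a i * v₀) * U 0).coeff n₀ = 0
      rw [HahnSeries.coeff_sub, rv_coeff_C_mul, mul_assoc, hvu, mul_one]
      exact sub_self _
    have hU'K : ∀ i n, (((U' i).coeff n : A) : L) ∈ K := by
      intro i n
      have h1 : (U' i).coeff n = (U i.succ).coeff n - a i * v₀ * (U 0).coeff n := by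
        show (U i.succ - HahnSeries.C (a i * v₀) * U 0).coeff n = _
        rw [HahnSeries.coeff_sub, rv_coeff_C_mul]
      rw [h1]
      have h2 : (((U i.succ).coeff n - a i * v₀ * (U 0).coeff n : A) : L) =
          ((U i.succ).coeff n : L) - (a i : L) * (v₀ : L) * ((U 0).coeff n : L) := rfl
      rw [h2]
      exact K.sub_mem (hUK i.succ n) (K.mul_mem (K.mul_mem (haK i) hv₀K) (hUK 0 n))
    have hρU' : ∀ i, coeffMap π (U' i) =
        coeffMap π (U i.succ) - HahnSeries.C (π (a i * v₀)) * coeffMap π (U 0) := by
      intro i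
      show coeffMap π (U i.succ - HahnSeries.C (a i * v₀) * U 0) = _
      rw [map_sub, map_mul, rv_coeffMap_C]
    have hιU' : ∀ i, rvIota A (U' i) =
        rvIota A (U i.succ) - HahnSeries.C ((a i : L) * (v₀ : L)) * rvIota A (U 0) := by
      intro i
      show rvIota A (U i.succ - HahnSeries.C (a i * v₀) * U 0) = _
      rw [map_sub, map_mul, rv_coeffMap_C]
      rfl
    have hU'ind : RvIndep (fun i => coeffMap π (U' i)) := by
      intro g hg
      have key : ∑ i : Fin (j + 1),
          HahnSeries.C ((Fin.cons (-∑ i, g i * π (a i * v₀)) g : Fin (j + 1) → k) i) *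
            coeffMap π (U i) = 0 := by
        rw [Fin.sum_univ_succ]
        simp only [Fin.cons_zero, Fin.cons_succ]
        rw [← hg]
        simp only [hρU', mul_sub, Finset.sum_sub_distrib]
        rw [map_neg, map_sum, neg_mul, Finset.sum_mul]
        have : ∀ i : Fin j, HahnSeries.C (g i * π (a i * v₀)) * coeffMap π (U 0)
            = HahnSeries.C (g i) * (HahnSeries.C (π (a i * v₀)) * coeffMap π (U 0)) := by
          intro i
          rw [map_mul]
          ring
        simp only [this]
        ring
      have h2 := hU _ key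
      intro i
      have := h2 i.succ
      rwa [Fin.cons_succ] at this
    -- first correction of `G`
    let G₁ : LaurentSeries L := G - HahnSeries.C (G.coeff n₀ * (v₀ : L)) * rvIota A (U 0)
    have hG₁n : G₁.coeff n₀ = 0 := by
      show (G - HahnSeries.C (G.coeff n₀ * (v₀ : L)) * rvIota A (U 0)).coeff n₀ = 0
      rw [HahnSeries.coeff_sub, rv_coeff_C_mul, rvIota_coeff, mul_assoc, hvuL, mul_one]
      exact sub_self _
    have hG₁K : ∀ n, G₁.coeff n ∈ K := by
      intro n
      have h1 : G₁.coeff n = G.coeff n - G.coeff n₀ * (v₀ : L) * ((U 0).coeff n : L) := by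
        show (G - HahnSeries.C (G.coeff n₀ * (v₀ : L)) * rvIota A (U 0)).coeff n = _
        rw [HahnSeries.coeff_sub, rv_coeff_C_mul, rvIota_coeff]
      rw [h1]
      exact K.sub_mem (hGK n) (K.mul_mem (K.mul_mem (hGK n₀) hv₀K) (hUK 0 n))
    obtain ⟨c', hc'K, hc'⟩ := ih U' hU'K hU'ind G₁ hG₁K
    refine ⟨Fin.cons (G.coeff n₀ * (v₀ : L) - ∑ i, c' i * ((a i : L) * (v₀ : L))) c', ?_, ?_⟩
    · intro i
      refine Fin.cases ?_ (fun i => ?_) i
      · rw [Fin.cons_zero]
        exact K.sub_mem (K.mul_mem (hGK n₀) hv₀K)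
          (K.sum_mem fun i _ => K.mul_mem (hc'K i) (K.mul_mem (haK i) hv₀K))
      · rw [Fin.cons_succ]
        exact hc'K i
    have hG'eq : G - ∑ i : Fin (j + 1),
          HahnSeries.C ((Fin.cons (G.coeff n₀ * (v₀ : L) - ∑ i, c' i * ((a i : L) * (v₀ : L))) c'
            : Fin (j + 1) → L) i) * rvIota A (U i)
        = G₁ - ∑ i, HahnSeries.C (c' i) * rvIota A (U' i) := by
      rw [Fin.sum_univ_succ]
      simp only [Fin.cons_zero, Fin.cons_succ]
      simp only [hιU', mul_sub, Finset.sum_sub_distrib]
      rw [map_sub, map_sum, sub_mul, Finset.sum_mul]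
      have : ∀ i : Fin j, HahnSeries.C (c' i * ((a i : L) * (v₀ : L))) * rvIota A (U 0)
          = HahnSeries.C (c' i) * (HahnSeries.C ((a i : L) * (v₀ : L)) * rvIota A (U 0)) := by
        intro i
        rw [map_mul (HahnSeries.C) (c' i)]
        ring
      simp only [this]
      show _ = G - HahnSeries.C (G.coeff n₀ * (v₀ : L)) * rvIota A (U 0) - _
      ring
    rw [hG'eq]
    intro γ W hγ hW g hg
    -- the coefficient of `W` at the pivot vanishes
    have hWn : W.coeff n₀ = 0 := by
      have h1 := congrArg (fun s => HahnSeries.coeff s n₀) hW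
      simp only [HahnSeries.coeff_sub, hG₁n, HahnSeries.coeff_sum, rv_coeff_C_mul,
        rvIota_coeff, hU'n, ZeroMemClass.coe_zero, mul_zero, Finset.sum_const_zero,
        sub_zero] at h1
      have h2 : ((W.coeff n₀ : A) : L) = 0 := by
        rcases mul_eq_zero.mp h1.symm with h | h
        · exact absurd h hγ
        · exact h
      exact Subtype.ext h2
    -- rewrite the combination in terms of `U 0` and `U'`
    have hcomb : coeffMap π W = HahnSeries.C (g 0 + ∑ i : Fin j, g i.succ * π (a i * v₀)) *
        coeffMap π (U 0) + ∑ i : Fin j, HahnSeries.C (g i.succ) * coeffMap π (U' i) := by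
      rw [hg, Fin.sum_univ_succ]
      simp only [hρU', mul_sub, Finset.sum_sub_distrib]
      rw [map_add, map_sum, add_mul, Finset.sum_mul]
      have : ∀ i : Fin j, HahnSeries.C (g i.succ * π (a i * v₀)) * coeffMap π (U 0)
          = HahnSeries.C (g i.succ) * (HahnSeries.C (π (a i * v₀)) * coeffMap π (U 0)) := by
        intro i
        rw [map_mul (HahnSeries.C) (g i.succ)]
        ring
      simp only [this]
      ring
    have hlam : g 0 + ∑ i : Fin j, g i.succ * π (a i * v₀) = 0 := by
      have h1 := congrArg (fun s => HahnSeries.coeff s n₀) hcomb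
      simp only [HahnSeries.coeff_add, HahnSeries.coeff_sum, rv_coeff_C_mul, coeffMap_coeff,
        hU'n, hWn, map_zero, mul_zero, Finset.sum_const_zero, add_zero] at h1
      rcases mul_eq_zero.mp h1.symm with h | h
      · exact h
      · exact absurd h hn₀
    rw [hlam, map_zero, zero_mul, zero_add] at hcomb
    exact hc' γ W hγ hW (fun i => g i.succ) hcomb

end RatPivot

/-- **620-P.** `Fermat.Agent.H37.FF.RatPivotStatement`. -/
theorem ratPivot : Fermat.Agent.H37.FF.RatPivotStatement := by
  intro L _ A k _ π K hker j U hUK hU G hGK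
  obtain ⟨c, hcK, hc⟩ := rv_pivot_mem K hker j U hUK hU G hGK
  exact ⟨c, hcK, fun γ W _ _ hγ hW g hg => hc γ W hγ hW g hg⟩

end Fermat.Agent.H19.FF

end
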